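import Fermat.Agent.S52.Fam.Seams

/-!
# S52, third level: the seam [GEOM] from [UNIV] + [SPEC] + [MIN] (+ [RED])

The family lives over `ℚ(s) = RatFunc ℚ`, in short form `y² = x³ + a x + b`, `a b : RatFunc ℚ`;
`Ω := AlgebraicClosure (RatFunc ℚ)`, `ℚ̄(s) ⊆ Ω` is `s52_KbarS`.

* `s52_T5 a b`     : every 5-torsion point of the family curve over `Ω` has its coordinates in
                     `ℚ̄(s)` (i.e. `G_{ℚ̄(s)}` acts trivially on the 5-torsion);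
* `s52_Univ_stmt`  [UNIV] the function-field half: such a family through `(a₀, b₀)` at `s = 0`,
                     generically without `3`-isogeny;
* `s52_Spec_stmt`  [SPEC] two good specialisations of a `T5`-family have isomorphic `E[5]`;
* `s52_Min_stmt`   [MIN]  rescaling `(a, b) ↦ (λ⁴ a, λ⁶ b)` to coprime polynomial invariants
                     (Néron–Ogg–Shafarevich for 5-torsion at every finite place of `ℚ(s)`);
* `s52_geom_of : s52_Univ_stmt → s52_Spec_stmt → s52_Min_stmt → s52_Red_stmt → s52_Geom_stmt`.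
-/

set_option autoImplicit false

namespace Fermat.Agent.S52

open WeierstrassCurve Polynomial
open scoped WeierstrassCurve.Affine

/-- `Ω`, an algebraic closure of `ℚ(s)` -/
abbrev s52_Om : Type := AlgebraicClosure (RatFunc ℚ)

noncomputable instance s52_decEqOm : DecidableEq s52_Om := Classical.decEq _

/-- the family curve `y² = x³ + a x + b` over `ℚ(s)` -/
noncomputable def s52_shortK (a b : RatFunc ℚ) : WeierstrassCurve.Affine (RatFunc ℚ) := ⟨0, 0, 0, a, b⟩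

/-- `ℚ̄(s)` inside `Ω` -/
noncomputable def s52_KbarS : Subfield s52_Om :=
  Subfield.closure ((algebraicClosure ℚ s52_Om : Set s52_Om) ∪
    {algebraMap (RatFunc ℚ) s52_Om RatFunc.X})

/-- **(T5)** all 5-torsion points of `y² = x³ + a x + b` over `Ω` have coordinates in `ℚ̄(s)` -/
def s52_T5 (a b : RatFunc ℚ) : Prop :=
  ∀ P : ((s52_shortK a b)⁄s52_Om).Point, 5 • P = 0 →
    ∀ (x y : s52_Om) (h : ((s52_shortK a b)⁄s52_Om).Nonsingular x y),
      P = .some x y h → x ∈ s52_KbarS ∧ y ∈ s52_KbarS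

/-- the value of `r ∈ ℚ(s)` at `s = c` (junk if `c` is a pole) -/
noncomputable def s52_ev (r : RatFunc ℚ) (c : ℚ) : ℚ := RatFunc.eval (RingHom.id ℚ) c r

/-- `c` is a good point of the family `(a, b)`: no pole, nonzero discriminant -/
def s52_Good (a b : RatFunc ℚ) (c : ℚ) : Prop :=
  a.denom.eval c ≠ 0 ∧ b.denom.eval c ≠ 0 ∧ 4 * (s52_ev a c) ^ 3 + 27 * (s52_ev b c) ^ 2 ≠ 0

/-- **[UNIV]** -/
def s52_Univ_stmt : Prop :=
  ∀ a₀ b₀ : ℚ, a₀ ≠ 0 → b₀ ≠ 0 → 4 * a₀ ^ 3 + 27 * b₀ ^ 2 ≠ 0 →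
    Affine.Point.GaloisRepIsIrreducible (K := s52_Qb) ℚ (s52_short a₀ b₀) 5 →
    ∃ a b : RatFunc ℚ, s52_Good a b 0 ∧ s52_ev a 0 = a₀ ∧ s52_ev b 0 = b₀ ∧ s52_T5 a b ∧
      ∀ h : RatFunc ℚ, (h + 27) * (h + 3) ^ 3 * (4 * a ^ 3 + 27 * b ^ 2) ≠ 1728 * 4 * a ^ 3 * h

/-- **[SPEC]** -/
def s52_Spec_stmt : Prop :=
  ∀ a b : RatFunc ℚ, s52_T5 a b → ∀ c₁ c₂ : ℚ, s52_Good a b c₁ → s52_Good a b c₂ →
    s52_TorsIso (s52_short (s52_ev a c₁) (s52_ev b c₁))
      (s52_short (s52_ev a c₂) (s52_ev b c₂)) 5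

/-- **[MIN]** -/
def s52_Min_stmt : Prop :=
  ∀ a b : RatFunc ℚ, s52_Good a b 0 → s52_T5 a b →
    ∃ (C4 C6 : Polynomial ℚ) (B : Finset ℚ),
      C4.coeff 0 = -48 * s52_ev a 0 ∧ C6.coeff 0 = -864 * s52_ev b 0 ∧ IsCoprime C4 C6 ∧
      (∃ lam : RatFunc ℚ, lam ≠ 0 ∧
        algebraMap (Polynomial ℚ) (RatFunc ℚ) C4 = -48 * lam ^ 4 * a ∧
        algebraMap (Polynomial ℚ) (RatFunc ℚ) C6 = -864 * lam ^ 6 * b) ∧
      ∀ c : ℚ, c ∉ B → a.denom.eval c ≠ 0 ∧ b.denom.eval c ≠ 0 ∧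
        ∃ μ : ℚ, μ ≠ 0 ∧ C4.eval c = -48 * μ ^ 4 * s52_ev a c ∧
          C6.eval c = -864 * μ ^ 6 * s52_ev b c

/-- scaling `(a, b) ↦ (μ⁴ a, μ⁶ b)` is a change of variables -/
theorem s52_short_scale (a b μ : ℚ) (hμ : μ ≠ 0) :
    ∃ C : VariableChange ℚ, C • s52_short a b = s52_short (μ ^ 4 * a) (μ ^ 6 * b) := by
  refine ⟨⟨(Units.mk0 μ hμ)⁻¹, 0, 0, 0⟩, ?_⟩
  simp only [s52_short]
  ext <;> simp [WeierstrassCurve.variableChange_def]

/-- **[GEOM] from [UNIV], [SPEC], [MIN], [RED].** -/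
theorem s52_geom_of (hU : s52_Univ_stmt) (hS : s52_Spec_stmt) (hMin : s52_Min_stmt)
    (hR : s52_Red_stmt) : s52_Geom_stmt := by
  intro c4 c6 hc4 hc6 hdisc hirr
  have ha₀ : -c4 / 48 ≠ 0 := by
    intro h; apply hc4; linarith
  have hb₀ : -c6 / 864 ≠ 0 := by
    intro h; apply hc6; linarith
  have hΔ₀ : 4 * (-c4 / 48) ^ 3 + 27 * (-c6 / 864) ^ 2 ≠ 0 := by
    intro h; apply hdisc; linear_combination (-27648 : ℚ) * h
  obtain ⟨a, b, hgood0, ha0, hb0, hT5, hroot⟩ := hU _ _ ha₀ hb₀ hΔ₀ hirr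
  obtain ⟨C4, C6, B, h4, h6, hcop, ⟨lam, hlam, hC4, hC6⟩, hB⟩ := hMin a b hgood0 hT5
  refine ⟨C4, C6, ?_, ?_, s52s_coprime_disc hcop, ?_, B, ?_⟩
  · rw [h4, ha0]; ring
  · rw [h6, hb0]; ring
  · -- generic absence of a 3-isogeny
    intro h hh
    apply hroot h
    have hev : eval h ((s52_quartic C4 C6).map (algebraMap (Polynomial ℚ) (RatFunc ℚ))) =
        (h + 27) * (h + 3) ^ 3 * ((algebraMap (Polynomial ℚ) (RatFunc ℚ) C4) ^ 3
          - (algebraMap (Polynomial ℚ) (RatFunc ℚ) C6) ^ 2)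
          - 1728 * (algebraMap (Polynomial ℚ) (RatFunc ℚ) C4) ^ 3 * h := by
      simp [s52_quartic, map_ofNat]
    rw [hev, hC4, hC6] at hh
    have h12 : lam ^ 12 ≠ 0 := pow_ne_zero 12 hlam
    have : (-27648 : RatFunc ℚ) * lam ^ 12 *
        ((h + 27) * (h + 3) ^ 3 * (4 * a ^ 3 + 27 * b ^ 2) - 1728 * 4 * a ^ 3 * h) = 0 := by
      linear_combination hh
    rcases mul_eq_zero.1 this with h1 | h1
    · exact absurd h1 (mul_ne_zero (by norm_num) h12)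
    · exact sub_eq_zero.1 h1
  · -- the specialisations
    intro c hcB hΔc
    obtain ⟨hda, hdb, μ, hμ, e4, e6⟩ := hB c hcB
    have hgoodc : s52_Good a b c := by
      refine ⟨hda, hdb, fun h => hΔc ?_⟩
      rw [e4, e6]
      linear_combination (-27648 : ℚ) * μ ^ 12 * h
    have iso1 := hS a b hT5 0 c hgood0 hgoodc
    rw [ha0, hb0] at iso1
    obtain ⟨Cv, hCv⟩ := s52_short_scale (s52_ev a c) (s52_ev b c) μ hμ
    have iso2 := hR.1 _ _ ⟨Cv, hCv⟩ 5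
    have e : s52_curve (C4.eval c) (C6.eval c) =
        s52_short (μ ^ 4 * s52_ev a c) (μ ^ 6 * s52_ev b c) := by
      simp only [s52_curve, e4, e6]
      congr 1 <;> ring
    rw [e]
    exact iso1.trans iso2

end Fermat.Agent.S52
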